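/-
S34 middle (helper34): the Atkin-Lehner involution `w_q` of `FN (M * q)` as an abstract structure
(`w ∘ α = β`, `w ∘ β = α`) and its formal properties.  The second vertical valuation of
`X₀(M q)` above `q` is `v_0 = v_∞ ∘ w`.
-/
import Fermat.Agent.GAL.E.Defs
import Fermat.Agent.S24.B.Field

set_option autoImplicit false

noncomputable section

namespace Fermat.Agent.S34

open ModularCurve AlgebraicCurve Fermat.Agent.S24 Fermat.Agent.S24.B Fermat.Agent.GAL
  Fermat.Agent.GAL.E

/-- The Atkin-Lehner involution at `q` on the function field of `X₀(M q)`. -/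
structure ALInv (M q : ℕ) [NeZero M] [NeZero q] where
  /-- the involution -/
  w : FN (M * q) ≃+* FN (M * q)
  w_alpha : ∀ x : FN M, w (heckeAlphaBar Kbar M q x) = heckeBetaBar Kbar M q x
  w_beta : ∀ x : FN M, w (heckeBetaBar Kbar M q x) = heckeAlphaBar Kbar M q x

section Gen

variable (M q : ℕ) [NeZero M] [NeZero q]

theorem alpha_JF (d : ℕ) [NeZero d] (hd : d ∣ M) :
    heckeAlphaBar Kbar M q (JF M d hd) = JF (M * q) d (hd.mul_right q) :=
  Subtype.ext (by rw [coe_heckeAlphaBar]; rfl)

theorem beta_JF (d : ℕ) [NeZero d] (hd : d ∣ M) :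
    heckeBetaBar Kbar M q (JF M d hd) = JF (M * q) (d * q) (Nat.mul_dvd_mul_right hd q) := by
  apply Subtype.ext
  rw [coe_heckeBetaBar]
  show qExpand Kbar q (Jser d) = Jser (d * q)
  rw [Jser_eq_qExpand d, Jser_eq_qExpand (d * q), qExpand_qExpand]
  exact qExpand_congr (mul_comm q d) _

/-- `FN (M q)` is generated by the images of `α` and `β` (`q` prime). -/
theorem FN_induction_alpha_beta (hq : q.Prime) {P : FN (M * q) → Prop}
    (hα : ∀ x : FN M, P (heckeAlphaBar Kbar M q x)) (hβ : ∀ x : FN M, P (heckeBetaBar Kbar M q x))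
    (hadd : ∀ f g, P f → P g → P (f + g)) (hneg : ∀ f, P f → P (-f))
    (hmul : ∀ f g, P f → P g → P (f * g)) (hinv : ∀ f, P f → P f⁻¹) (f : FN (M * q)) : P f := by
  induction f using FN_induction with
  | hJ d hne hd =>
    by_cases hqd : q ∣ d
    · obtain ⟨d', rfl⟩ := hqd
      have hd' : d' ∣ M := by
        rw [mul_comm M q] at hd
        exact Nat.dvd_of_mul_dvd_mul_left hq.pos hd
      have : NeZero d' := ⟨fun h => hne.out (by rw [h, mul_zero])⟩
      have h := hβ (JF M d' hd')
      rw [beta_JF] at h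
      convert h using 2
      exact mul_comm q d'
    · have hd' : d ∣ M := ((hq.coprime_iff_not_dvd.2 hqd).symm).dvd_of_dvd_mul_right hd
      have h := hα (JF M d hd')
      rwa [alpha_JF] at h
  | hc c =>
    have h := hα (algebraMap Kbar (FN M) c)
    rwa [AlgHom.commutes] at h
  | hadd f g hf hg => exact hadd f g hf hg
  | hneg f hf => exact hneg f hf
  | hmul f g hf hg => exact hmul f g hf hg
  | hinv f hf => exact hinv f hf

theorem galF_alpha (σ : GQ) (x : FN M) :
    galF (M * q) σ (heckeAlphaBar Kbar M q x) = heckeAlphaBar Kbar M q (galF M σ x) :=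
  Subtype.ext (by rw [coe_galF, coe_heckeAlphaBar, coe_heckeAlphaBar, coe_galF])

theorem coeffMap_qExpand_aux {R S : Type*} [CommRing R] [CommRing S] (f : R →+* S) (n : ℕ)
    [NeZero n] (x : LaurentSeries R) : coeffMap f (qExpand R n x) = qExpand S n (coeffMap f x) := by
  ext k
  by_cases hk : (n : ℤ) ∣ k
  · obtain ⟨m, rfl⟩ := hk
    rw [coeffMap_coeff, qExpand_coeff_mul, qExpand_coeff_mul, coeffMap_coeff]
  · rw [coeffMap_coeff, qExpand_coeff_of_not_dvd n _ hk, qExpand_coeff_of_not_dvd n _ hk, map_zero]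

theorem galF_beta (σ : GQ) (x : FN M) :
    galF (M * q) σ (heckeBetaBar Kbar M q x) = heckeBetaBar Kbar M q (galF M σ x) :=
  Subtype.ext (by
    rw [coe_galF, coe_heckeBetaBar, coe_heckeBetaBar, coe_galF, coeffMap_qExpand_aux])

end Gen

namespace ALInv

variable {M q : ℕ} [NeZero M] [NeZero q] (W : ALInv M q)

theorem w_algebraMap (c : Kbar) :
    W.w (algebraMap Kbar (FN (M * q)) c) = algebraMap Kbar (FN (M * q)) c := by
  have h := W.w_alpha (algebraMap Kbar (FN M) c)
  rwa [AlgHom.commutes, AlgHom.commutes] at h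

theorem w_w (hq : q.Prime) (f : FN (M * q)) : W.w (W.w f) = f := by
  induction f using FN_induction_alpha_beta M q hq with
  | hα x => rw [W.w_alpha, W.w_beta]
  | hβ x => rw [W.w_beta, W.w_alpha]
  | hadd f g hf hg => rw [map_add, map_add, hf, hg]
  | hneg f hf => rw [map_neg, map_neg, hf]
  | hmul f g hf hg => rw [map_mul, map_mul, hf, hg]
  | hinv f hf => rw [map_inv₀, map_inv₀, hf]

theorem w_galF (hq : q.Prime) (σ : GQ) (f : FN (M * q)) :
    W.w (galF (M * q) σ f) = galF (M * q) σ (W.w f) := by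
  induction f using FN_induction_alpha_beta M q hq with
  | hα x => rw [galF_alpha, W.w_alpha, W.w_alpha, galF_beta]
  | hβ x => rw [galF_beta, W.w_beta, W.w_beta, galF_alpha]
  | hadd f g hf hg => rw [map_add, map_add, map_add, map_add, hf, hg]
  | hneg f hf => rw [map_neg, map_neg, map_neg, map_neg, hf]
  | hmul f g hf hg => rw [map_mul, map_mul, map_mul, map_mul, hf, hg]
  | hinv f hf => rw [map_inv₀, map_inv₀, map_inv₀, map_inv₀, hf]

/-- two involutions agree -/
theorem w_eq (hq : q.Prime) (W' : ALInv M q) (f : FN (M * q)) : W.w f = W'.w f := by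
  induction f using FN_induction_alpha_beta M q hq with
  | hα x => rw [W.w_alpha, W'.w_alpha]
  | hβ x => rw [W.w_beta, W'.w_beta]
  | hadd f g hf hg => rw [map_add, map_add, hf, hg]
  | hneg f hf => rw [map_neg, map_neg, hf]
  | hmul f g hf hg => rw [map_mul, map_mul, hf, hg]
  | hinv f hf => rw [map_inv₀, map_inv₀, hf]

end ALInv

end Fermat.Agent.S34

end
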