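/-
S34 middle (helper34): the predicate `OneAt N A u` ("`u ≡ 1` for the Gauss valuation attached to
`A`", the hypothesis of `Fermat.Agent.GAL.KL`) and its calculus; the action of inertia.
-/
import Fermat.Agent.GAL.E.Main
import Fermat.Agent.S05.Inertia

set_option autoImplicit false

noncomputable section

namespace Fermat.Agent.S34

open ModularCurve AlgebraicCurve Fermat.Agent.S24 Fermat.Agent.GAL Fermat.Agent.GAL.E

/-- `u` is a quotient of two `A`-integral elements of `FN N` with the same nonzero reduction. -/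
def OneAt (N : ℕ) (A : ValuationSubring Kbar) (u : FN N) : Prop :=
  ∃ (P Q : LaurentSeries A) (hP : incl A P ∈ modularFunctionFieldBar N)
    (hQ : incl A Q ∈ modularFunctionFieldBar N),
    red A P = red A Q ∧ red A Q ≠ 0 ∧ u = (⟨incl A P, hP⟩ : FN N) / ⟨incl A Q, hQ⟩

variable {N : ℕ} {A : ValuationSubring Kbar}

/-- A convenient constructor. -/
theorem OneAt.mk' {u X Y : FN N} (P Q : LaurentSeries A) (hX : (X : LaurentSeries Kbar) = incl A P)
    (hY : (Y : LaurentSeries Kbar) = incl A Q) (h : red A P = red A Q) (h0 : red A Q ≠ 0)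
    (hu : u = X / Y) : OneAt N A u := by
  refine ⟨P, Q, hX ▸ X.2, hY ▸ Y.2, h, h0, ?_⟩
  rw [hu]
  congr 1
  · exact Subtype.ext hX
  · exact Subtype.ext hY

theorem OneAt.exists' {u : FN N} (h : OneAt N A u) :
    ∃ (X Y : FN N) (P Q : LaurentSeries A), (X : LaurentSeries Kbar) = incl A P ∧
      (Y : LaurentSeries Kbar) = incl A Q ∧ red A P = red A Q ∧ red A Q ≠ 0 ∧ u = X / Y := by
  obtain ⟨P, Q, hP, hQ, h1, h2, h3⟩ := h
  exact ⟨⟨incl A P, hP⟩, ⟨incl A Q, hQ⟩, P, Q, rfl, rfl, h1, h2, h3⟩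

theorem oneAt_one : OneAt N A 1 :=
  OneAt.mk' (X := 1) (Y := 1) 1 1 (by rw [map_one]; rfl) (by rw [map_one]; rfl) rfl
    (by rw [map_one]; exact one_ne_zero) (by rw [div_one])

theorem OneAt.mul {u v : FN N} (hu : OneAt N A u) (hv : OneAt N A v) : OneAt N A (u * v) := by
  obtain ⟨X, Y, P, Q, hX, hY, h1, h2, rfl⟩ := hu.exists'
  obtain ⟨X', Y', P', Q', hX', hY', h1', h2', rfl⟩ := hv.exists'
  refine OneAt.mk' (X := X * X') (Y := Y * Y') (P * P') (Q * Q') ?_ ?_ ?_ ?_ ?_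
  · rw [map_mul, ← hX, ← hX']; rfl
  · rw [map_mul, ← hY, ← hY']; rfl
  · rw [map_mul, map_mul, h1, h1']
  · rw [map_mul]; exact mul_ne_zero h2 h2'
  · rw [div_mul_div_comm]

theorem OneAt.inv {u : FN N} (hu : OneAt N A u) : OneAt N A u⁻¹ := by
  obtain ⟨X, Y, P, Q, hX, hY, h1, h2, rfl⟩ := hu.exists'
  exact OneAt.mk' (X := Y) (Y := X) Q P hY hX h1.symm (h1 ▸ h2) (by rw [inv_div])

theorem OneAt.div {u v : FN N} (hu : OneAt N A u) (hv : OneAt N A v) : OneAt N A (u / v) := by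
  rw [div_eq_mul_inv]
  exact hu.mul hv.inv

theorem OneAt.pow {u : FN N} (hu : OneAt N A u) (m : ℕ) : OneAt N A (u ^ m) := by
  induction m with
  | zero => rw [pow_zero]; exact oneAt_one
  | succ m ih => rw [pow_succ]; exact ih.mul hu

theorem OneAt.ne_zero {u : FN N} (hu : OneAt N A u) : u ≠ 0 := by
  obtain ⟨X, Y, P, Q, hX, hY, h1, h2, rfl⟩ := hu.exists'
  have hne : ∀ (Z : FN N) (R : LaurentSeries A), (Z : LaurentSeries Kbar) = incl A R →
      red A R ≠ 0 → Z ≠ 0 := by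
    rintro Z R hZ hR rfl
    have : incl A R = 0 := hZ.symm
    have h0 : R = 0 := incl_injective A (by rw [this, map_zero])
    exact hR (by rw [h0, map_zero])
  exact div_ne_zero (hne X P hX (h1 ▸ h2)) (hne Y Q hY h2)

/-- `OneAt` is stable under the inertia group. -/
theorem OneAt.galF {u : FN N} (hu : OneAt N A u) {τ : GQ} (hτ : τ ∈ A.inertiaSubgroupIn ℚ) :
    OneAt N A (galF N τ u) := by
  obtain ⟨X, Y, P, Q, hX, hY, h1, h2, rfl⟩ := hu.exists'
  obtain ⟨P', hP1, hP2⟩ := exists_gal_of_inertia A τ hτ P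
  obtain ⟨Q', hQ1, hQ2⟩ := exists_gal_of_inertia A τ hτ Q
  refine OneAt.mk' (X := E.galF N τ X) (Y := E.galF N τ Y) P' Q' ?_ ?_ ?_ ?_ (map_div₀ _ _ _)
  · rw [coe_galF, hP1, hX]
  · rw [coe_galF, hQ1, hY]
  · rw [hP2, hQ2, h1]
  · rw [hQ2]; exact h2

/-- For `τ` in the inertia group of `A` and a nonzero constant `c`, `τ c / c` is a unit of `A`. -/
theorem gal_div_mem (τ : GQ) (hτ : τ ∈ A.inertiaSubgroupIn ℚ) (c : Kbar) (hc : c ≠ 0) :
    τ c / c ∈ A ∧ (τ c / c)⁻¹ ∈ A := by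
  have : Algebra.IsAlgebraic ℚ Kbar := AlgebraicClosure.isAlgebraic ℚ
  have h := S05.inertia_valuation_eq A hτ c
  have hv : A.valuation c ≠ 0 := (Valuation.ne_zero_iff _).mpr hc
  have h1 : A.valuation (τ c / c) = 1 := by rw [map_div₀, h, div_self hv]
  constructor
  · rw [← A.valuation_le_one_iff, h1]
  · rw [← A.valuation_le_one_iff, map_inv₀, h1, inv_one]

/-- **Inertia moves a function by a unit constant times a function `≡ 1`.** -/
theorem exists_oneAt_of_inertia (ℓ : ℕ) (hℓ : ℓ.Prime) (hA : A.LiesOverPrime ℓ) (τ : GQ)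
    (hτ : τ ∈ A.inertiaSubgroupIn ℚ) (u : FN N) (hu : u ≠ 0) :
    ∃ (κ : Kbar) (v : FN N), κ ≠ 0 ∧ κ ∈ A ∧ κ⁻¹ ∈ A ∧ OneAt N A v ∧
      E.galF N τ u = algebraMap Kbar (FN N) κ * v * u := by
  obtain ⟨c, x, y, hx, hy, hc, hx0, hy0, huxy⟩ := exists_scaling A ℓ hℓ hA N u hu
  set X : FN N := ⟨incl A x, hx⟩ with hX
  set Y : FN N := ⟨incl A y, hy⟩ with hY
  have hXne : X ≠ 0 := by
    rintro h
    rw [h, zero_div, mul_zero] at huxy
    exact hu huxy
  have hYne : Y ≠ 0 := by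
    rintro h
    rw [h, div_zero, mul_zero] at huxy
    exact hu huxy
  obtain ⟨x', hx'1, hx'2⟩ := exists_gal_of_inertia A τ hτ x
  obtain ⟨y', hy'1, hy'2⟩ := exists_gal_of_inertia A τ hτ y
  have hτc : τ c ≠ 0 := (map_ne_zero _).2 hc
  obtain ⟨hk1, hk2⟩ := gal_div_mem τ hτ c hc
  refine ⟨τ c / c, (E.galF N τ X * Y) / (X * E.galF N τ Y), div_ne_zero hτc hc, hk1, hk2, ?_, ?_⟩
  · refine OneAt.mk' (X := E.galF N τ X * Y) (Y := X * E.galF N τ Y) (x' * y) (x * y') ?_ ?_ ?_ ?_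
      rfl
    · rw [map_mul, hx'1]; rfl
    · rw [map_mul, hy'1]; rfl
    · rw [map_mul, map_mul, hx'2, hy'2]
    · rw [map_mul, hy'2]; exact mul_ne_zero hx0 hy0
  · have hσXne : E.galF N τ X ≠ 0 := (map_ne_zero_iff _ (E.galF N τ).injective).2 hXne
    have hσYne : E.galF N τ Y ≠ 0 := (map_ne_zero_iff _ (E.galF N τ).injective).2 hYne
    have hc' : algebraMap Kbar (FN N) c ≠ 0 := (map_ne_zero _).2 hc
    have h1 : E.galF N τ u = algebraMap Kbar (FN N) (τ c) * (E.galF N τ X / E.galF N τ Y) := by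
      rw [huxy, map_mul, map_div₀, galF_algebraMap]
    rw [h1, map_div₀]
    conv_rhs => rw [huxy]
    field_simp

end Fermat.Agent.S34

end
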