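/-
S34 middle (helper34): the Kronecker elements `x = j - j_q ^ q`, `y = j_q - j ^ q` of `FN (M * q)`
(`y ≡ 0` at `v_∞`, `x ≡ 0` at `v_0 = v_∞ ∘ w`, `w x = y`) and the function
`(x + η y) / (x + y)`, which is `≡ 1` at `v_∞` and `≡ η` at `v_0`.
-/
import Fermat.Agent.S34.OneAt
import Fermat.Agent.S34.ALInv
import Fermat.Prelude.Def_ModularCurve_X0ModL

set_option autoImplicit false

noncomputable section

namespace Fermat.Agent.S34

open ModularCurve AlgebraicCurve Fermat.Agent.S24 Fermat.Agent.S24.B Fermat.Agent.GAL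
  Fermat.Agent.GAL.E

section Kronecker

variable (M q : ℕ) [NeZero M] [NeZero q]

/-- `x = j - j_q ^ q`. -/
def kronX : FN (M * q) :=
  heckeAlphaBar Kbar M q (jF M) - heckeBetaBar Kbar M q (jF M) ^ q

/-- `y = j_q - j ^ q`. -/
def kronY : FN (M * q) :=
  heckeBetaBar Kbar M q (jF M) - heckeAlphaBar Kbar M q (jF M) ^ q

variable {M q}

theorem ALInv.w_kronX (W : ALInv M q) : W.w (kronX M q) = kronY M q := by
  rw [kronX, kronY, map_sub, map_pow, W.w_alpha, W.w_beta]

theorem ALInv.w_kronY (W : ALInv M q) : W.w (kronY M q) = kronX M q := by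
  rw [kronX, kronY, map_sub, map_pow, W.w_alpha, W.w_beta]

variable (q) (A : ValuationSubring Kbar)

/-- the integral series of `x` -/
def serX : LaurentSeries A := jqModC A - qExpand A q (jqModC A) ^ q

/-- the integral series of `y` -/
def serY : LaurentSeries A := qExpand A q (jqModC A) - jqModC A ^ q

theorem coe_jF (M : ℕ) : ((jF M : FN M) : LaurentSeries Kbar) = jqModC Kbar := by
  show Jser 1 = _
  rw [Formal.Jser_one, ← jqModC_rat]
  exact coeffMap_jqModC _

variable (M)

theorem coe_kronX : ((kronX M q : FN (M * q)) : LaurentSeries Kbar) = incl A (serX q A) := by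
  rw [serX, map_sub, map_pow, coeffMap_qExpand_aux, coeffMap_jqModC]
  show ((heckeAlphaBar Kbar M q (jF M) : FN (M * q)) : LaurentSeries Kbar)
    - ((heckeBetaBar Kbar M q (jF M) : FN (M * q)) : LaurentSeries Kbar) ^ q = _
  rw [coe_heckeAlphaBar, coe_heckeBetaBar, coe_jF]

theorem coe_kronY : ((kronY M q : FN (M * q)) : LaurentSeries Kbar) = incl A (serY q A) := by
  rw [serY, map_sub, map_pow, coeffMap_qExpand_aux, coeffMap_jqModC]
  show ((heckeBetaBar Kbar M q (jF M) : FN (M * q)) : LaurentSeries Kbar)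
    - ((heckeAlphaBar Kbar M q (jF M) : FN (M * q)) : LaurentSeries Kbar) ^ q = _
  rw [coe_heckeAlphaBar, coe_heckeBetaBar, coe_jF]

variable {q A}

theorem jqModC_pow_char {k : Type*} [Field k] (hq : q.Prime) [CharP k q] :
    jqModC k ^ q = qExpand k q (jqModC k) := by
  have : Fact q.Prime := ⟨hq⟩
  rw [pow_char_eq_qExpand q (jqModC k), coeffMap_jqModC]

theorem red_serY (hq : q.Prime) (hA : A.LiesOverPrime q) : red A (serY q A) = 0 := by
  have : CharP (IsLocalRing.ResidueField A) q := charP_residueField A q hq hA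
  rw [serY, map_sub, map_pow, coeffMap_qExpand_aux, coeffMap_jqModC, jqModC_pow_char hq, sub_self]

theorem red_serX (hq : q.Prime) (hA : A.LiesOverPrime q) : red A (serX q A) ≠ 0 := by
  have : CharP (IsLocalRing.ResidueField A) q := charP_residueField A q hq hA
  rw [serX, map_sub, map_pow, coeffMap_qExpand_aux, coeffMap_jqModC, ← map_pow,
    jqModC_pow_char hq, qExpand_qExpand]
  intro h
  have h1 := congrArg (fun z : LaurentSeries (IsLocalRing.ResidueField A) => z.coeff (-1)) h
  simp only [HahnSeries.coeff_sub, HahnSeries.coeff_zero] at h1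
  rw [coeff_jqModC_neg_one, qExpand_coeff_of_not_dvd, sub_zero] at h1
  · exact one_ne_zero h1
  · intro hd
    have h2 : ((q * q : ℕ) : ℤ) ∣ 1 := by simpa using hd
    have h3 : q * q ∣ 1 := by exact_mod_cast h2
    have h4 : q ∣ 1 := (dvd_mul_right q q).trans h3
    exact hq.one_lt.ne' (Nat.dvd_one.1 h4)

/-- the function `(x + η y) / (x + y)` -/
def kronH (M q : ℕ) [NeZero M] [NeZero q] (η : Kbar) : FN (M * q) :=
  (kronX M q + algebraMap Kbar (FN (M * q)) η * kronY M q) / (kronX M q + kronY M q)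

theorem incl_C (a : A) : incl A (HahnSeries.C a) = algebraMap Kbar (LaurentSeries Kbar) (a : Kbar) := by
  rw [algebraMap_laurentSeries_eq_single]
  exact coeffMap_single _ _ _

theorem oneAt_kronH (hq : q.Prime) (hA : A.LiesOverPrime q) (η : Kbar) (hη : η ∈ A) :
    OneAt (M * q) A (kronH M q η) := by
  refine OneAt.mk' (X := kronX M q + algebraMap Kbar (FN (M * q)) η * kronY M q)
    (Y := kronX M q + kronY M q) (serX q A + HahnSeries.C (⟨η, hη⟩ : A) * serY q A)
    (serX q A + serY q A) ?_ ?_ ?_ ?_ rfl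
  · rw [map_add, map_mul, ← coe_kronX M q A, ← coe_kronY M q A, incl_C]
    rfl
  · rw [map_add, ← coe_kronX M q A, ← coe_kronY M q A]
    rfl
  · rw [map_add, map_add, map_mul, red_serY hq hA, mul_zero]
  · rw [map_add, red_serY hq hA, add_zero]
    exact red_serX hq hA

theorem kron_add_ne_zero (hq : q.Prime) (hA : A.LiesOverPrime q) :
    kronX M q + kronY M q ≠ 0 := by
  intro h
  have h1 : incl A (serX q A + serY q A) = 0 := by
    rw [map_add, ← coe_kronX M q A, ← coe_kronY M q A]
    exact congrArg Subtype.val h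
  have h2 : serX q A + serY q A = 0 := incl_injective A (by rw [h1, map_zero])
  have h3 := congrArg (red A) h2
  rw [map_add, red_serY hq hA, add_zero, map_zero] at h3
  exact red_serX hq hA h3

theorem ALInv.w_kronH (W : ALInv M q) (η : Kbar) (hη : η ≠ 0) :
    W.w (kronH M q η) = algebraMap Kbar (FN (M * q)) η * kronH M q η⁻¹ := by
  have h0 : algebraMap Kbar (FN (M * q)) η ≠ 0 := (map_ne_zero _).2 hη
  rw [kronH, kronH, map_div₀, map_add, map_add, map_mul, W.w_kronX, W.w_kronY, W.w_algebraMap,
    map_inv₀, add_comm (kronY M q) (kronX M q), ← mul_div_assoc, mul_add, ← mul_assoc,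
    mul_inv_cancel₀ h0, one_mul, add_comm]

end Kronecker

end Fermat.Agent.S34

end
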