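import Fermat.Agent.S31.FromTower
import Fermat.Agent.S31.Dense
import Fermat.Prelude.Def_GaloisRep_LocalConditions

/-!
# S34: reduction of the frozen statement to the universal tower (helper34)

`S34` follows from
* the density of powers of Frobenius lifts (`Fermat.Agent.S31.frobPowDense`, landed);
* a universal Hecke-Galois tower `U : Fermat.Agent.GAL.UTower N p S`;
* `UnipotentAt U q` : every inertia element `τ` above `q` satisfies `(τ - 1) ^ 2 = 0` on every layer.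

No reducedness of the coefficient ring is used, and `p = 2` is allowed.
-/

set_option autoImplicit false

namespace Fermat.Agent.S34

open Polynomial IsLocalRing CuspForm Fermat.Agent.S30 Fermat.Agent.S31 Fermat.Agent.GAL

/-- Inertia above `q` acts unipotently on all layers of the tower. -/
def UnipotentAt {N p : ℕ} [NeZero N] {S : Finset ℕ} (U : UTower N p S) (q : ℕ) : Prop :=
  ∀ (k : ℕ) (τ : GQ), IsInertia τ q → ∀ v : U.W k,
    U.ρ k τ (U.ρ k τ v) - 2 • U.ρ k τ v + v = 0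

/-- The universal Hecke-valued trace of an inertia element above `q` is `2` modulo `p ^ n`, and its
cyclotomic exponent is `1`. -/
def HeckeTraceUnipotent (p N : ℕ) [NeZero N] (S : Finset ℕ) (q : ℕ) : Prop :=
  ∀ n : ℕ, ∃ L : IntermediateField ℚ (AlgebraicClosure ℚ), FiniteDimensional ℚ L ∧
    ∀ (P : ValuationSubring (AlgebraicClosure ℚ)), P.LiesOverPrime q →
    ∀ τ ∈ P.inertiaSubgroupIn ℚ,
    ∀ (ℓ : ℕ) (hℓ : ℓ.Prime) (hℓN : ¬ ℓ ∣ N) (hℓS : ℓ ∉ (↑S : Set ℕ))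
      (A : ValuationSubring (AlgebraicClosure ℚ)) (σ : Gal) (w : ℕ),
      A.LiesOverPrime ℓ → A.IsFrobeniusAt σ ℓ →
      (∀ x ∈ L, (σ ^ w) x = τ x) →
      (∃ b : heckeAlgebra N 2 (↑S : Set ℕ),
        lucas (heckeAlgebra.T hℓ hℓN hℓS : heckeAlgebra N 2 (↑S : Set ℕ)) (ℓ : _) w - 2 =
          (p : heckeAlgebra N 2 (↑S : Set ℕ)) ^ n * b) ∧ ℓ ^ w ≡ 1 [MOD p ^ n]

section LinearAlgebra

variable {A : Type*} [CommRing A] [Nontrivial A] {V : Type*} [AddCommGroup V] [Module A V]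
  [Module.Free A V] [Module.Finite A V]

/-- The characteristic polynomial of an endomorphism of a free module of rank two. -/
theorem charpoly_eq_of_finrank_two (hV : Module.finrank A V = 2) (f : Module.End A V) :
    LinearMap.charpoly f = X ^ 2 - C (LinearMap.trace A V f) * X + C (LinearMap.det f) := by
  let b : Module.Basis (Fin 2) A V := Module.finBasisOfFinrankEq _ _ hV
  rw [← LinearMap.charpoly_toMatrix f b, Matrix.charpoly_fin_two,
    LinearMap.trace_eq_matrix_trace A b, LinearMap.det_toMatrix]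

/-- The determinant from the characteristic polynomial. -/
theorem det_eq_of_charpoly (hV : Module.finrank A V = 2) (f : Module.End A V) (t d : A)
    (hf : LinearMap.charpoly f = X ^ 2 - C t * X + C d) : LinearMap.det f = d := by
  have h := charpoly_eq_of_finrank_two hV f
  rw [hf] at h
  have h0 := congrArg (fun P => Polynomial.coeff P 0) h
  simp at h0
  exact h0.symm

/-- An endomorphism congruent to the identity modulo `I` has determinant congruent to `1`. -/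
theorem det_sub_one_mem (hV : Module.finrank A V = 2) (I : Ideal A) (f : Module.End A V)
    (hf : ∀ v, f v - v ∈ I • (⊤ : Submodule A V)) : LinearMap.det f - 1 ∈ I := by
  classical
  let b : Module.Basis (Fin 2) A V := Module.finBasisOfFinrankEq _ _ hV
  have key : ∀ x ∈ I • (⊤ : Submodule A V), ∀ j, b.repr x j ∈ I := by
    intro x hx j
    refine Submodule.smul_induction_on hx ?_ ?_
    · intro a ha v _
      rw [map_smul, Finsupp.smul_apply, smul_eq_mul]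
      exact Ideal.mul_mem_right _ _ ha
    · intro x y hx hy
      rw [map_add, Finsupp.add_apply]
      exact Ideal.add_mem _ hx hy
  have hM : ∀ i j, LinearMap.toMatrix b b f i j - (if i = j then 1 else 0) ∈ I := by
    intro i j
    have h := key _ (hf (b j)) i
    rw [map_sub, Finsupp.sub_apply, Module.Basis.repr_self, Finsupp.single_apply] at h
    rw [LinearMap.toMatrix_apply]
    convert h using 3
    exact eq_comm
  rw [← LinearMap.det_toMatrix b, Matrix.det_fin_two]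
  set M := LinearMap.toMatrix b b f
  have h00 := hM 0 0
  have h11 := hM 1 1
  have h01 := hM 0 1
  simp only [if_true, Fin.zero_eq_one_iff, Nat.succ_ne_self, if_false, sub_zero] at h00 h11 h01
  have e : M 0 0 * M 1 1 - M 0 1 * M 1 0 - 1 =
      (M 0 0 - 1) * M 1 1 + (M 1 1 - 1) - M 0 1 * M 1 0 := by ring
  rw [e]
  exact I.sub_mem (I.add_mem (I.mul_mem_right _ h00) h11) (I.mul_mem_right _ h01)

end LinearAlgebra

section

variable {T : Type} [CommRing T] [IsLocalRing T]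

/-- Two Galois elements agreeing on the field of level `n` have congruent determinants. -/
theorem det_sub_det_mem (ρ : GaloisRepAdic T) (n : ℕ)
    (L : IntermediateField ℚ (AlgebraicClosure ℚ))
    (hL : ∀ σ : Gal, (∀ x ∈ L, σ x = x) →
      ∀ v : ρ.V, ρ.ρ σ v - v ∈ (maximalIdeal T ^ n) • (⊤ : Submodule T ρ.V))
    (g g' : Gal) (hgg' : ∀ x ∈ L, g x = g' x) :
    LinearMap.det (ρ.ρ g) - LinearMap.det (ρ.ρ g') ∈ maximalIdeal T ^ n := by
  have hδ : ∀ x ∈ L, (g'⁻¹ * g) x = x := by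
    intro x hx
    rw [AlgEquiv.mul_apply, hgg' x hx]
    exact AlgEquiv.symm_apply_apply g' x
  have h1 := det_sub_one_mem ρ.finrank_eq _ _ (hL _ hδ)
  have h2 : ρ.ρ g = ρ.ρ g' * ρ.ρ (g'⁻¹ * g) := by
    rw [← map_mul, mul_inv_cancel_left]
  rw [h2, map_mul]
  have e : LinearMap.det (ρ.ρ g') * LinearMap.det (ρ.ρ (g'⁻¹ * g)) - LinearMap.det (ρ.ρ g') =
      LinearMap.det (ρ.ρ g') * (LinearMap.det (ρ.ρ (g'⁻¹ * g)) - 1) := by ring
  rw [e]
  exact Ideal.mul_mem_left _ _ h1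

end

variable {p : ℕ} {N : ℕ} [NeZero N] {S : Finset ℕ}

/-- **The unipotent Hecke trace congruence from the universal tower.** -/
theorem heckeTraceUnipotent_of_utower [Fact p.Prime] (hpS : p ∈ S) (U : UTower N p S)
    {q : ℕ} (hq : q.Prime) (hqp : q ≠ p) (hU : UnipotentAt U q) :
    HeckeTraceUnipotent p N S q := by
  obtain ⟨c, hc⟩ := exists_shift U.ι U.ι_injective p
  intro n
  obtain ⟨L₁, hL₁fin, hL₁⟩ := U.finiteLevel (n + c)
  obtain ⟨L₂, hL₂fin, hL₂⟩ := exists_cycloField p (n + c)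
  refine ⟨L₁ ⊔ L₂, IntermediateField.finiteDimensional_sup L₁ L₂, ?_⟩
  intro P hP τ hτ ℓ hℓ hℓN hℓS A σ w hA hσ hagree
  have hle₁ : L₁ ≤ L₁ ⊔ L₂ := le_sup_left
  have hle₂ : L₂ ≤ L₁ ⊔ L₂ := le_sup_right
  have hS1 : ℓ ∉ S := fun h => hℓS (Finset.mem_coe.mpr h)
  have hℓp : ℓ ≠ p := fun h => hS1 (h ▸ hpS)
  -- the two Galois elements act in the same way
  have hρ : U.ρ (n + c) (σ ^ w) = U.ρ (n + c) τ := by
    have h1 : U.ρ (n + c) (τ⁻¹ * σ ^ w) = 1 := by
      apply hL₁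
      intro x hx
      rw [AlgEquiv.mul_apply, hagree x (hle₁ hx)]
      exact AlgEquiv.symm_apply_apply τ x
    have h2 : U.ρ (n + c) (σ ^ w) = U.ρ (n + c) τ * U.ρ (n + c) (τ⁻¹ * σ ^ w) := by
      rw [← map_mul, mul_inv_cancel_left]
    rw [h2, h1, mul_one]
  have hρinv : U.ρ (n + c) (σ ^ w)⁻¹ = U.ρ (n + c) τ⁻¹ := by
    have h1 : U.ρ (n + c) (σ ^ w)⁻¹ * U.ρ (n + c) τ = 1 := by
      rw [← hρ, ← map_mul, inv_mul_cancel, map_one]
    calc U.ρ (n + c) (σ ^ w)⁻¹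
        = U.ρ (n + c) (σ ^ w)⁻¹ * (U.ρ (n + c) τ * U.ρ (n + c) τ⁻¹) := by
          rw [← map_mul (U.ρ (n + c)) τ, mul_inv_cancel, map_one, mul_one]
      _ = U.ρ (n + c) τ⁻¹ := by rw [← mul_assoc, h1, one_mul]
  -- the cyclotomic exponent
  have hcyc : ℓ ^ w ≡ 1 [MOD p ^ (n + c)] := by
    have h1 : IsCyc p (n + c) (σ ^ w) (ℓ ^ w) := (isCyc_frob hℓ hℓp ⟨A, hA, hσ⟩).pow w
    have h2 : IsCyc p (n + c) τ 1 := isCyc_inertia hq hqp ⟨P, hP, hτ⟩
    have h3 : IsCyc p (n + c) (σ ^ w) 1 :=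
      h2.congr (fun μ hμ => hagree μ (hle₂ (hL₂ μ hμ)))
    exact h1.modEq h3
  refine ⟨?_, hcyc.of_dvd (pow_dvd_pow p (Nat.le_add_right n c))⟩
  have hkill : ∀ v : U.W (n + c),
      (lucas (MvPolynomial.X ℓ : HA) (ℓ : HA) w - 2) • v = 0 := by
    intro v
    have hu := hU (n + c) τ ⟨P, hP, hτ⟩ (U.ρ (n + c) τ⁻¹ v)
    have h1 : U.ρ (n + c) τ (U.ρ (n + c) τ⁻¹ v) = v := by
      rw [← Module.End.mul_apply, ← map_mul, mul_inv_cancel, map_one, Module.End.one_apply]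
    rw [h1] at hu
    rw [sub_smul, lucas_smul U (n + c) hℓ hS1 ⟨A, hA, hσ⟩ w v, hρ, hρinv,
      nsmul_eq_of_modEq hcyc _ (U.pow_smul (n + c) _), one_smul, ofNat_smul_eq_nsmul]
    rw [← hu]
    abel
  obtain ⟨E, hE⟩ := U.faithful (n + c) _ hkill
  obtain ⟨b, hb⟩ := hc n _ E hE
  refine ⟨b, ?_⟩
  rw [← hb, map_sub]
  have e1 := map_lucas (MvPolynomial.aeval (heckeFun N S) : HA →ₐ[ℤ] _).toRingHom
    (MvPolynomial.X ℓ) (ℓ : HA) w
  simp only [AlgHom.toRingHom_eq_coe, RingHom.coe_coe, MvPolynomial.aeval_X, map_natCast] at e1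
  rw [e1, heckeFun_eq hℓ hℓN hℓS, map_ofNat]

variable {𝒪 : Type} [CommRing 𝒪] [IsDomain 𝒪] [IsDiscreteValuationRing 𝒪]
  [IsAdicComplete (IsLocalRing.maximalIdeal 𝒪) 𝒪]
  {θ : CuspForm.heckeAlgebra N 2 (↑S : Set ℕ) →+* IsLocalRing.ResidueField 𝒪}
  {T : Type} [CommRing T] [IsLocalRing T] [IsNoetherianRing T]
  [IsAdicComplete (IsLocalRing.maximalIdeal T) T] [Algebra 𝒪 T] [IsLocalHom (algebraMap 𝒪 T)]
  [Module.Finite 𝒪 T] [Module.Free 𝒪 T]

/-- **S34 from its two inputs.** -/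
theorem isUnipotentOnInertiaAt_of_inputs [Fact p.Prime] (hdense : FrobPowDense) {q : ℕ}
    (hcong : HeckeTraceUnipotent p N S q)
    (hp𝒪 : (p : 𝒪) ∈ IsLocalRing.maximalIdeal 𝒪)
    (hNS : ∀ q : ℕ, q.Prime → q ∣ N → q ∈ S)
    (H : CuspForm.HeckeGaloisRepDatum N (↑S : Set ℕ) 𝒪 θ T) :
    H.ρ.IsUnipotentOnInertiaAt q := by
  intro P hP τ hτ
  have hpT : (p : T) ∈ maximalIdeal T := by
    have h1 : (p : T) = algebraMap 𝒪 T (p : 𝒪) := by simp
    rw [h1]
    exact map_nonunit (algebraMap 𝒪 T) _ hp𝒪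
  have hHaus : IsHausdorff (maximalIdeal T) T := inferInstance
  -- approximation of `τ` by powers of Frobenius lifts
  have happrox : ∀ n : ℕ,
      LinearMap.trace T H.ρ.V (H.ρ.ρ τ) - 2 ∈ maximalIdeal T ^ n ∧
      LinearMap.det (H.ρ.ρ τ) - 1 ∈ maximalIdeal T ^ n := by
    intro n
    obtain ⟨L₁, hL₁fin, hL₁⟩ := H.ρ.isAdicContinuous n
    obtain ⟨L₂, hL₂fin, hL₂⟩ := hcong n
    have hLfin : FiniteDimensional ℚ (L₁ ⊔ L₂ : IntermediateField ℚ (AlgebraicClosure ℚ)) :=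
      IntermediateField.finiteDimensional_sup L₁ L₂
    obtain ⟨ℓ, A, σ, w, hℓ, hℓS, hA, hσ, hw⟩ := hdense (L₁ ⊔ L₂) hLfin S τ
    have hℓN : ¬ ℓ ∣ N := fun hd => hℓS (hNS ℓ hℓ hd)
    have hℓS1 : ℓ ∉ (↑S : Set ℕ) := by simpa using hℓS
    have hle₁ : L₁ ≤ L₁ ⊔ L₂ := le_sup_left
    have hle₂ : L₂ ≤ L₁ ⊔ L₂ := le_sup_right
    obtain ⟨⟨b, hb⟩, hcyc⟩ := hL₂ P hP τ hτ ℓ hℓ hℓN hℓS1 A σ w hA hσ
      (fun x hx => hw x (hle₂ hx))
    constructor
    · have h1 := trace_sub_trace_mem H.ρ n L₁ hL₁ τ (σ ^ w) (fun x hx => (hw x (hle₁ hx)).symm)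
      rw [trace_frob_pow H hℓ hℓN hℓS1 A hA σ hσ w] at h1
      have h3 : H.π (lucas (heckeAlgebra.T hℓ hℓN hℓS1 : heckeAlgebra N 2 (↑S : Set ℕ))
          (ℓ : _) w) - 2 ∈ maximalIdeal T ^ n := by
        have : H.π (lucas (heckeAlgebra.T hℓ hℓN hℓS1 : heckeAlgebra N 2 (↑S : Set ℕ))
            (ℓ : _) w) - 2 = H.π (lucas (heckeAlgebra.T hℓ hℓN hℓS1 :
              heckeAlgebra N 2 (↑S : Set ℕ)) (ℓ : _) w - 2) := by
          rw [map_sub, map_ofNat]
        rw [this, hb, map_mul, map_pow, map_natCast]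
        exact Ideal.mul_mem_right _ _ (Ideal.pow_mem_pow hpT n)
      have := Ideal.add_mem _ h1 h3
      convert this using 1
      abel
    · have h1 := det_sub_det_mem H.ρ n L₁ hL₁ τ (σ ^ w) (fun x hx => (hw x (hle₁ hx)).symm)
      have hdet : LinearMap.det (H.ρ.ρ (σ ^ w)) = ((ℓ ^ w : ℕ) : T) := by
        rw [map_pow, map_pow, det_eq_of_charpoly H.ρ.finrank_eq _ _ _
          (H.charpoly_frob ℓ hℓ hℓN hℓS1 A hA σ hσ)]
        push_cast
        rfl
      rw [hdet] at h1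
      have h2 := natCast_sub_mem_of_modEq p hpT hcyc
      have := Ideal.add_mem _ h1 h2
      convert this using 1
      push_cast
      abel
  have htr : LinearMap.trace T H.ρ.V (H.ρ.ρ τ) = 2 := by
    rw [← sub_eq_zero]
    apply hHaus.haus
    intro n
    rw [SModEq.zero, smul_eq_mul, Ideal.mul_top]
    exact (happrox n).1
  have hdet : LinearMap.det (H.ρ.ρ τ) = 1 := by
    rw [← sub_eq_zero]
    apply hHaus.haus
    intro n
    rw [SModEq.zero, smul_eq_mul, Ideal.mul_top]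
    exact (happrox n).2
  rw [charpoly_eq_of_finrank_two H.ρ.finrank_eq, htr, hdet]
  simp only [map_ofNat, map_one]
  ring

/-- **S34 from the universal tower.** -/
theorem result_of_utower [Fact p.Prime] (hp𝒪 : (p : 𝒪) ∈ IsLocalRing.maximalIdeal 𝒪)
    (hpS : p ∈ S) (hNS : ∀ q : ℕ, q.Prime → q ∣ N → q ∈ S)
    (H : CuspForm.HeckeGaloisRepDatum N (↑S : Set ℕ) 𝒪 θ T)
    (U : UTower N p S) {q : ℕ} (hq : q.Prime) (hqp : q ≠ p) (hU : UnipotentAt U q) :
    H.ρ.IsUnipotentOnInertiaAt q :=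
  isUnipotentOnInertiaAt_of_inputs frobPowDense
    (heckeTraceUnipotent_of_utower hpS U hq hqp hU) hp𝒪 hNS H

end Fermat.Agent.S34
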