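/-
S34 (helper34): from Kummer levels (interface `Fermat.Agent.GAL.KummerLevel`) on which inertia at
`q` acts unipotently to the frozen statement S34.
-/
import Fermat.Agent.S34.Top
import Fermat.Agent.GAL.TowerOfKummer

set_option autoImplicit false

namespace Fermat.Agent.S34

open Fermat.Agent.GAL Fermat.Agent.S30

/-- Inertia at `q` acts unipotently (`(τ - 1) ^ 2 = 0`) on a Kummer level. -/
def KummerUnipotentAt {N n : ℕ} (D : KummerLevel N n) (q : ℕ) : Prop :=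
  ∀ τ : GQ, IsInertia τ q → ∀ w : D.W, D.ρ τ (D.ρ τ w) - 2 • D.ρ τ w + w = 0

theorem unipotentAt_utowerOfKummer {N p : ℕ} [NeZero N] (hp : p.Prime) (S : Finset ℕ)
    (hNS : ∀ q : ℕ, q.Prime → q ∣ N → q ∈ S) (hpS : p ∈ S)
    (D : ∀ k : ℕ, KummerLevel N (p ^ k)) (q : ℕ) (h : ∀ k, KummerUnipotentAt (D k) q) :
    UnipotentAt (utowerOfKummer hp S hNS hpS D) q := by
  intro k τ hτ v
  obtain ⟨x, rfl⟩ := (D k).mult.surjective v
  have h0 := h k τ hτ x
  have e1 : ∀ y : (D k).W, (utowerOfKummer hp S hNS hpS D).ρ k τ ((D k).mult y)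
      = (D k).mult ((D k).ρ τ y) := fun y =>
    (LayerData.ofKummerLevel (D k)).r_mult τ y
  rw [e1, e1]
  have := congrArg (D k).mult h0
  rw [map_add, map_sub, map_nsmul, map_zero] at this
  exact this

variable {p : ℕ} {N : ℕ} [NeZero N] {S : Finset ℕ}
  {𝒪 : Type} [CommRing 𝒪] [IsDomain 𝒪] [IsDiscreteValuationRing 𝒪]
  [IsAdicComplete (IsLocalRing.maximalIdeal 𝒪) 𝒪]
  {θ : CuspForm.heckeAlgebra N 2 (↑S : Set ℕ) →+* IsLocalRing.ResidueField 𝒪}
  {T : Type} [CommRing T] [IsLocalRing T] [IsNoetherianRing T]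
  [IsAdicComplete (IsLocalRing.maximalIdeal T) T] [Algebra 𝒪 T] [IsLocalHom (algebraMap 𝒪 T)]
  [Module.Finite 𝒪 T] [Module.Free 𝒪 T]

/-- **S34 from Kummer levels with unipotent inertia at `q`.** -/
theorem result_of_kummerLevels (hp : p.Prime)
    (hp𝒪 : (p : 𝒪) ∈ IsLocalRing.maximalIdeal 𝒪) (hpS : p ∈ S)
    (hNS : ∀ q : ℕ, q.Prime → q ∣ N → q ∈ S)
    (H : CuspForm.HeckeGaloisRepDatum N (↑S : Set ℕ) 𝒪 θ T)
    (q : ℕ) (hq : q.Prime) (hqp : q ≠ p)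
    (hK : ∀ k : ℕ, ∃ D : KummerLevel N (p ^ k), KummerUnipotentAt D q) :
    H.ρ.IsUnipotentOnInertiaAt q :=
  haveI : Fact p.Prime := ⟨hp⟩
  result_of_utower hp𝒪 hpS hNS H (utowerOfKummer hp S hNS hpS fun k => (hK k).choose) hq hqp
    (unipotentAt_utowerOfKummer hp S hNS hpS _ q fun k => (hK k).choose_spec)

end Fermat.Agent.S34
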