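/-
S34 (helper34): THE TARGET STATEMENT of project C1 for S34, in the Kummer model of block E of the
cluster GAL, and the reduction of the frozen statement S34 to it.

* `UNI N A n`      : `(τ - 1) ^ 2 = 0` on `W N n` for every `τ` in the inertia group of `A`;
* `UNIStatement`   : `UNI N A n` whenever `A` lies over a prime `q` with `q ∣ N`, `¬ q ^ 2 ∣ N`,
                     `¬ q ∣ n`;
* `IsModel D`      : the Kummer level `D` is (Galois equivariantly) the Kummer model `W N n`;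
* `ModelStatement` : what the final assembly of GAL has to expose (`KummerStatement` together with
                     the fact that the level is the Kummer model);
* `result_of_statements` : the frozen statement S34 from `ModelStatement` and `UNIStatement`.
-/
import Fermat.Agent.S34.Final
import Fermat.Agent.GAL.E.Defs

set_option autoImplicit false

namespace Fermat.Agent.S34

open Fermat.Agent.GAL Fermat.Agent.S30 Fermat.Agent.S24

/-- `(τ - 1) ^ 2 = 0` on the Kummer model `W N n` for all `τ` in the inertia group of `A`. -/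
def UNI (N : ℕ) (A : ValuationSubring (AlgebraicClosure ℚ)) (n : ℕ) : Prop :=
  ∀ τ : GQ, τ ∈ A.inertiaSubgroupIn ℚ → ∀ w : E.W N n,
    E.rho N n τ (E.rho N n τ w) - 2 • E.rho N n τ w + w = 0

/-- The same statement on Kummer units: `τ² u · u / (τ u)²` is an `n`-th power. -/
def UNI' (N : ℕ) (A : ValuationSubring (AlgebraicClosure ℚ)) (n : ℕ) : Prop :=
  ∀ τ : GQ, τ ∈ A.inertiaSubgroupIn ℚ → ∀ u : FN N, u ≠ 0 → E.IsKum N n u →
    ∃ w : FN N, E.galF N τ (E.galF N τ u) * u = w ^ n * E.galF N τ u ^ 2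

theorem UNI_of_UNI' {N : ℕ} {A : ValuationSubring (AlgebraicClosure ℚ)} {n : ℕ}
    (h : UNI' N A n) : UNI N A n := by
  intro τ hτ w
  obtain ⟨u, rfl⟩ := E.cls_surjective w
  rw [E.rho_cls, E.rho_cls, ← E.cls_pow]
  refine (congrArg (· + E.cls u) (sub_eq_add_neg _ _)).trans ?_
  show _ + - _ + _ = _
  rw [← E.cls_inv, ← E.cls_mul, ← E.cls_mul, E.cls_eq_zero_iff]
  obtain ⟨w, hw⟩ := h τ hτ ((u : (FN N)ˣ) : FN N) (Units.ne_zero _) u.2
  refine E.mem_pows_of_eq_pow (w := w) ?_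
  have h1 : E.galF N τ ((u : (FN N)ˣ) : FN N) ≠ 0 :=
    (map_ne_zero_iff _ (E.galF N τ).injective).2 (Units.ne_zero _)
  rw [Subgroup.coe_mul, Subgroup.coe_mul, Subgroup.coe_inv, Subgroup.coe_pow, Units.val_mul,
    Units.val_mul, Units.val_inv_eq_inv_val, Units.val_pow_eq_pow_val]
  show E.galF N τ (E.galF N τ ((u : (FN N)ˣ) : FN N)) *
    (E.galF N τ ((u : (FN N)ˣ) : FN N) ^ 2)⁻¹ * ((u : (FN N)ˣ) : FN N) = w ^ n
  field_simp
  rw [hw, mul_comm]

/-- **The target of project C1 for S34.** -/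
def UNIStatement : Prop :=
  ∀ (N : ℕ) [NeZero N] (q : ℕ), q.Prime → q ∣ N → ¬ q ^ 2 ∣ N →
    ∀ A : ValuationSubring (AlgebraicClosure ℚ), A.LiesOverPrime q →
      ∀ n : ℕ, ¬ q ∣ n → UNI N A n

/-- The Kummer level `D` is, Galois equivariantly, the Kummer model `W N n` of block E. -/
def IsModel {N n : ℕ} (D : KummerLevel N n) : Prop :=
  ∃ e : D.W ≃+ E.W N n, ∀ (σ : GQ) (w : D.W), e (D.ρ σ w) = E.rho N n σ (e w)

/-- What the final assembly of the cluster GAL has to expose. -/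
def ModelStatement : Prop :=
  ∀ (N : ℕ) [NeZero N] (p : ℕ) [Fact p.Prime] (k : ℕ), ∃ D : KummerLevel N (p ^ k), IsModel D

theorem kummerUnipotentAt_of_isModel {N n : ℕ} {D : KummerLevel N n} (hD : IsModel D) (q : ℕ)
    (h : ∀ A : ValuationSubring (AlgebraicClosure ℚ), A.LiesOverPrime q → UNI N A n) :
    KummerUnipotentAt D q := by
  obtain ⟨e, he⟩ := hD
  rintro τ ⟨A, hA, hτ⟩ w
  apply e.injective
  rw [map_add, map_sub, map_nsmul, map_zero, he, he]
  exact h A hA τ hτ (e w)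

variable {p : ℕ} {N : ℕ} [NeZero N] {S : Finset ℕ}
  {𝒪 : Type} [CommRing 𝒪] [IsDomain 𝒪] [IsDiscreteValuationRing 𝒪]
  [IsAdicComplete (IsLocalRing.maximalIdeal 𝒪) 𝒪]
  {θ : CuspForm.heckeAlgebra N 2 (↑S : Set ℕ) →+* IsLocalRing.ResidueField 𝒪}
  {T : Type} [CommRing T] [IsLocalRing T] [IsNoetherianRing T]
  [IsAdicComplete (IsLocalRing.maximalIdeal T) T] [Algebra 𝒪 T] [IsLocalHom (algebraMap 𝒪 T)]
  [Module.Finite 𝒪 T] [Module.Free 𝒪 T]

/-- **The frozen statement S34 from the two statements.** -/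
theorem result_of_statements (hM : ModelStatement) (hU : UNIStatement) (hp : p.Prime)
    (hp𝒪 : (p : 𝒪) ∈ IsLocalRing.maximalIdeal 𝒪) (hpS : p ∈ S)
    (hNS : ∀ q : ℕ, q.Prime → q ∣ N → q ∈ S)
    (H : CuspForm.HeckeGaloisRepDatum N (↑S : Set ℕ) 𝒪 θ T)
    (q : ℕ) (hq : q.Prime) (hqp : q ≠ p) (hqN : q ∣ N) (hq2 : ¬ q ^ 2 ∣ N) :
    H.ρ.IsUnipotentOnInertiaAt q := by
  have : Fact p.Prime := ⟨hp⟩
  refine result_of_kummerLevels hp hp𝒪 hpS hNS H q hq hqp fun k => ?_
  obtain ⟨D, hD⟩ := hM N p k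
  refine ⟨D, kummerUnipotentAt_of_isModel hD q fun A hA => hU N q hq hqN hq2 A hA (p ^ k) ?_⟩
  intro h
  exact hqp ((Nat.prime_dvd_prime_iff_eq hq hp).mp (hq.dvd_of_dvd_pow h))

end Fermat.Agent.S34
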