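/-
S34 middle (helper34): existence of the Atkin-Lehner involution `w_q` on `FN (M * q)`, `q` prime,
`q ∤ M`.

Take `γ = [[x, y], [M, q]] ∈ SL(2, ℤ)`.  Then `j (δ γ τ) = j (δ τ)` and `j (δ q γ τ) = j (δ τ / q)`
for `δ ∣ M`, so `f ↦ (t-expansion of f ∘ γ)` maps `FN (M q)` into `ℚ̄((t ^ M))`, and after the
substitution `t ^ M ↦ q` it exchanges `j (q ^ δ)` and `j (q ^ (δ q))`.
-/
import Fermat.Agent.S34.ALInv
import Fermat.Agent.S24.B.Gamma0

set_option autoImplicit false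

noncomputable section

namespace Fermat.Agent.S34

open UpperHalfPlane ModularCurve AlgebraicCurve Fermat.Agent.S24 Fermat.Agent.S24.B
  Fermat.Agent.GAL Fermat.Agent.GAL.E
open scoped MatrixGroups Real

namespace ALExists

theorem exists_gamma {M q : ℕ} (hc : Nat.Coprime q M) :
    ∃ (γ : SL(2, ℤ)) (x y : ℤ), γ.1 = !![x, y; (M : ℤ), (q : ℤ)] ∧ x * q - y * M = 1 := by
  have h := Int.gcd_eq_gcd_ab (q : ℤ) (M : ℤ)
  have h1 : Int.gcd (q : ℤ) (M : ℤ) = 1 := by
    rw [Int.gcd_natCast_natCast]; exact hc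
  rw [h1] at h
  have hdet : Int.gcdA q M * q - (-Int.gcdB q M) * M = 1 := by
    push_cast at h
    linear_combination -h
  exact ⟨⟨!![Int.gcdA q M, -Int.gcdB q M; (M : ℤ), (q : ℤ)], by
    rw [Matrix.det_fin_two_of]; linear_combination hdet⟩, _, _, rfl, hdet⟩

/-- `j (δ q γ τ) = j (δ τ / q)`. -/
theorem jfun_dilMat_mul_smul {M q : ℕ} [NeZero q] (γ : SL(2, ℤ)) (x y : ℤ)
    (hγ : γ.1 = !![x, y; (M : ℤ), (q : ℤ)]) (hdet : x * q - y * M = 1) (δ : ℕ) [NeZero δ]
    [NeZero (δ * q)] (hδ : δ ∣ M) (hδ0 : (0 : ℤ) < δ) (hq0 : (0 : ℤ) < q) (τ : ℍ) :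
    jfun (dilMat (δ * q) • γ • τ) = jfun (triMat δ 0 q hδ0 hq0 • τ) := by
  obtain ⟨m, rfl⟩ := hδ
  let γ' : SL(2, ℤ) := ⟨!![q * x, δ * y; (m : ℤ), 1], by
    rw [Matrix.det_fin_two_of]
    push_cast at hdet
    linear_combination hdet⟩
  have h1 : dilMat (δ * q) • γ • τ = γ' • triMat δ 0 q hδ0 hq0 • τ := by
    show dilMat (δ * q) • (γ : GL (Fin 2) ℝ) • τ = (γ' : GL (Fin 2) ℝ) • triMat δ 0 q hδ0 hq0 • τ
    rw [← mul_smul, ← mul_smul]
    congr 1
    apply Units.ext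
    rw [Units.val_mul, Units.val_mul, coe_triMat]
    have e1 : ((γ : GL (Fin 2) ℝ) : Matrix (Fin 2) (Fin 2) ℝ) = γ.1.map (Int.cast : ℤ → ℝ) := by
      ext i j; simp
    have e2 : ((γ' : GL (Fin 2) ℝ) : Matrix (Fin 2) (Fin 2) ℝ) = γ'.1.map (Int.cast : ℤ → ℝ) := by
      ext i j; simp
    rw [e1, e2, hγ]
    ext i j
    fin_cases i <;> fin_cases j <;>
      simp [γ', dilMat, Matrix.mul_apply, Fin.sum_univ_two] <;> ring
  rw [h1, Stubs.jfun_smul]

variable {M q : ℕ} [NeZero M] [NeZero q]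

/-- the expansion of `j (δ q γ τ)` -/
theorem texp_smul_jd_mul (γ : SL(2, ℤ)) (x y : ℤ)
    (hγ : γ.1 = !![x, y; (M : ℤ), (q : ℤ)]) (hdet : x * q - y * M = 1) (δ : ℕ) [NeZero δ]
    [NeZero (δ * q)] (hδ : δ ∣ M) :
    texp (M * q) (γ⁻¹ • jd (M * q) (δ * q) (Nat.mul_dvd_mul_right hδ q))
      = qExpand Kbar M (Jser δ) := by
  apply texp_eq
  have hδ0 : (0 : ℤ) < δ := by exact_mod_cast Nat.pos_of_ne_zero (NeZero.ne δ)
  have hq0 : (0 : ℤ) < q := by exact_mod_cast Nat.pos_of_ne_zero (NeZero.ne q)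
  have : NeZero (M * δ) := ⟨mul_ne_zero (NeZero.ne M) (NeZero.ne δ)⟩
  have h := hasTExp_tri (N := M * q) Stubs.hasTExp_jfun (δ : ℤ) 0 q hδ0 hq0 (M * δ)
    (by push_cast; ring) 1 (by simp)
  rw [twist_one] at h
  rw [Jser_eq_qExpand δ, qExpand_qExpand]
  have hfun : (γ⁻¹ • jd (M * q) (δ * q) (Nat.mul_dvd_mul_right hδ q)).1
      = fun τ => jfun (triMat δ 0 q hδ0 hq0 • τ) := by
    funext τ
    rw [smul_AL_apply, inv_inv]
    exact jfun_dilMat_mul_smul γ x y hγ hdet δ hδ hδ0 hq0 τ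
  rw [hfun]
  exact h

/-- the second embedding of `FN (M q)` in `ℚ̄((t))` -/
def emb0 (γ : SL(2, ℤ)) : FN (M * q) →+* LaurentSeries Kbar :=
  ((texpL (M * q)).toRingHom.comp
    (MulSemiringAction.toRingHom SL(2, ℤ) (LN (M * q)) γ⁻¹)).comp (Psi (M * q)).toRingHom

theorem emb0_apply (γ : SL(2, ℤ)) (f : FN (M * q)) :
    emb0 γ f = texpL (M * q) (γ⁻¹ • Psi (M * q) f) := rfl

theorem emb0_algebraMap (γ : SL(2, ℤ)) (c : Kbar) :
    emb0 γ (algebraMap Kbar (FN (M * q)) c) = algebraMap Kbar (LaurentSeries Kbar) c := by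
  rw [emb0_apply, AlgHom.commutes, smul_algebraMap_Kbar, AlgHom.commutes]

theorem emb0_JF (γ : SL(2, ℤ)) (x y : ℤ) (hγ : γ.1 = !![x, y; (M : ℤ), (q : ℤ)]) (δ : ℕ)
    [NeZero δ] (hδ : δ ∣ M) :
    emb0 γ (JF (M * q) δ (hδ.mul_right q)) = qExpand Kbar M (Jser (δ * q)) := by
  have h10 : (γ⁻¹)⁻¹ 1 0 = (M : ℤ) := by
    rw [inv_inv]
    show γ.1 1 0 = _
    rw [hγ]; rfl
  rw [emb0_apply, Psi_JF, smul_algebraMap_AL,
    smul_jd_of_dvd γ⁻¹ δ (hδ.mul_right q) (by rw [h10]; exact Int.natCast_dvd_natCast.mpr hδ),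
    texpL_algebraMap, texp_jd, Jser_eq_qExpand δ, Jser_eq_qExpand (δ * q), qExpand_qExpand,
    qExpand_qExpand]
  exact qExpand_congr (by ring) _

theorem emb0_JF_mul (γ : SL(2, ℤ)) (x y : ℤ) (hγ : γ.1 = !![x, y; (M : ℤ), (q : ℤ)])
    (hdet : x * q - y * M = 1) (δ : ℕ) [NeZero δ] [NeZero (δ * q)] (hδ : δ ∣ M) :
    emb0 γ (JF (M * q) (δ * q) (Nat.mul_dvd_mul_right hδ q)) = qExpand Kbar M (Jser δ) := by
  rw [emb0_apply, Psi_JF, smul_algebraMap_AL, texpL_algebraMap,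
    texp_smul_jd_mul γ x y hγ hdet δ hδ]

section Construct

variable (hq : q.Prime) (γ : SL(2, ℤ)) (x y : ℤ) (hγ : γ.1 = !![x, y; (M : ℤ), (q : ℤ)])
  (hdet : x * q - y * M = 1)

include hq hγ hdet

theorem exists_qExpand_eq (f : FN (M * q)) :
    ∃ z : FN (M * q), qExpand Kbar M (z : LaurentSeries Kbar) = emb0 γ f := by
  induction f using FN_induction with
  | hJ d hne hd =>
    by_cases hqd : q ∣ d
    · obtain ⟨d', rfl⟩ := hqd
      have hd' : d' ∣ M := by
        rw [mul_comm M q] at hd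
        exact Nat.dvd_of_mul_dvd_mul_left hq.pos hd
      have : NeZero d' := ⟨fun h => hne.out (by rw [h, mul_zero])⟩
      have : NeZero (d' * q) := ⟨mul_ne_zero (NeZero.ne d') (NeZero.ne q)⟩
      refine ⟨JF (M * q) d' (hd'.mul_right q), ?_⟩
      have h := emb0_JF_mul γ x y hγ hdet d' hd'
      have e : JF (M * q) (q * d') hd = JF (M * q) (d' * q) (Nat.mul_dvd_mul_right hd' q) := by
        apply Subtype.ext
        show Jser (q * d') = Jser (d' * q)
        rw [Jser_eq_qExpand (q * d'), Jser_eq_qExpand (d' * q)]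
        exact qExpand_congr (mul_comm q d') _
      rw [e, h]
      rfl
    · have hd' : d ∣ M := ((hq.coprime_iff_not_dvd.2 hqd).symm).dvd_of_dvd_mul_right hd
      have : NeZero (d * q) := ⟨mul_ne_zero (NeZero.ne d) (NeZero.ne q)⟩
      refine ⟨JF (M * q) (d * q) (Nat.mul_dvd_mul_right hd' q), ?_⟩
      rw [emb0_JF γ x y hγ d hd']
      rfl
  | hc c =>
    refine ⟨algebraMap Kbar (FN (M * q)) c, ?_⟩
    rw [emb0_algebraMap]
    show qExpand Kbar M (algebraMap Kbar (LaurentSeries Kbar) c) = _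
    rw [algebraMap_laurentSeries_eq_single, qExpand_single, mul_zero]
  | hadd f g hf hg =>
    obtain ⟨z, hz⟩ := hf
    obtain ⟨z', hz'⟩ := hg
    exact ⟨z + z', by rw [map_add, ← hz, ← hz', ← map_add]; rfl⟩
  | hneg f hf =>
    obtain ⟨z, hz⟩ := hf
    exact ⟨-z, by rw [map_neg, ← hz, ← map_neg]; rfl⟩
  | hmul f g hf hg =>
    obtain ⟨z, hz⟩ := hf
    obtain ⟨z', hz'⟩ := hg
    exact ⟨z * z', by rw [map_mul, ← hz, ← hz', ← map_mul]; rfl⟩
  | hinv f hf =>
    obtain ⟨z, hz⟩ := hf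
    exact ⟨z⁻¹, by rw [map_inv₀, ← hz, ← map_inv₀]; rfl⟩

/-- the endomorphism `w` -/
def wHom : FN (M * q) →+* FN (M * q) where
  toFun f := (exists_qExpand_eq hq γ x y hγ hdet f).choose
  map_one' := Subtype.ext (qExpand_injective (R := Kbar) M (by
    rw [(exists_qExpand_eq hq γ x y hγ hdet _).choose_spec, map_one]
    exact (map_one (qExpand Kbar M)).symm))
  map_mul' f g := Subtype.ext (qExpand_injective (R := Kbar) M (by
    rw [(exists_qExpand_eq hq γ x y hγ hdet _).choose_spec, map_mul]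
    refine Eq.trans ?_ (map_mul (qExpand Kbar M) _ _).symm
    rw [(exists_qExpand_eq hq γ x y hγ hdet f).choose_spec,
      (exists_qExpand_eq hq γ x y hγ hdet g).choose_spec]))
  map_zero' := Subtype.ext (qExpand_injective (R := Kbar) M (by
    rw [(exists_qExpand_eq hq γ x y hγ hdet _).choose_spec, map_zero]
    exact (map_zero (qExpand Kbar M)).symm))
  map_add' f g := Subtype.ext (qExpand_injective (R := Kbar) M (by
    rw [(exists_qExpand_eq hq γ x y hγ hdet _).choose_spec, map_add]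
    refine Eq.trans ?_ (map_add (qExpand Kbar M) _ _).symm
    rw [(exists_qExpand_eq hq γ x y hγ hdet f).choose_spec,
      (exists_qExpand_eq hq γ x y hγ hdet g).choose_spec]))

theorem qExpand_wHom (f : FN (M * q)) :
    qExpand Kbar M ((wHom hq γ x y hγ hdet f : FN (M * q)) : LaurentSeries Kbar) = emb0 γ f :=
  (exists_qExpand_eq hq γ x y hγ hdet f).choose_spec

theorem wHom_eq {f z : FN (M * q)} (h : qExpand Kbar M (z : LaurentSeries Kbar) = emb0 γ f) :
    wHom hq γ x y hγ hdet f = z :=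
  Subtype.ext (qExpand_injective (R := Kbar) M (by rw [qExpand_wHom, h]))

theorem wHom_algebraMap (c : Kbar) :
    wHom hq γ x y hγ hdet (algebraMap Kbar (FN (M * q)) c) = algebraMap Kbar (FN (M * q)) c := by
  apply wHom_eq
  rw [emb0_algebraMap]
  show qExpand Kbar M (algebraMap Kbar (LaurentSeries Kbar) c) = _
  rw [algebraMap_laurentSeries_eq_single, qExpand_single, mul_zero]

theorem wHom_alpha (f : FN M) :
    wHom hq γ x y hγ hdet (heckeAlphaBar Kbar M q f) = heckeBetaBar Kbar M q f := by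
  induction f using FN_induction with
  | hJ d hne hd =>
    rw [alpha_JF, beta_JF]
    apply wHom_eq
    rw [emb0_JF γ x y hγ d hd]
    rfl
  | hc c => rw [AlgHom.commutes, AlgHom.commutes, wHom_algebraMap]
  | hadd f g hf hg => rw [map_add, map_add, map_add, hf, hg]
  | hneg f hf => rw [map_neg, map_neg, map_neg, hf]
  | hmul f g hf hg => rw [map_mul, map_mul, map_mul, hf, hg]
  | hinv f hf => rw [map_inv₀, map_inv₀, map_inv₀, hf]

theorem wHom_beta (f : FN M) :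
    wHom hq γ x y hγ hdet (heckeBetaBar Kbar M q f) = heckeAlphaBar Kbar M q f := by
  induction f using FN_induction with
  | hJ d hne hd =>
    have : NeZero (d * q) := ⟨mul_ne_zero (NeZero.ne d) (NeZero.ne q)⟩
    rw [alpha_JF, beta_JF]
    apply wHom_eq
    rw [emb0_JF_mul γ x y hγ hdet d hd]
    rfl
  | hc c => rw [AlgHom.commutes, AlgHom.commutes, wHom_algebraMap]
  | hadd f g hf hg => rw [map_add, map_add, map_add, hf, hg]
  | hneg f hf => rw [map_neg, map_neg, map_neg, hf]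
  | hmul f g hf hg => rw [map_mul, map_mul, map_mul, hf, hg]
  | hinv f hf => rw [map_inv₀, map_inv₀, map_inv₀, hf]

theorem wHom_wHom (f : FN (M * q)) :
    wHom hq γ x y hγ hdet (wHom hq γ x y hγ hdet f) = f := by
  induction f using FN_induction_alpha_beta M q hq with
  | hα x => rw [wHom_alpha, wHom_beta]
  | hβ x => rw [wHom_beta, wHom_alpha]
  | hadd f g hf hg => rw [map_add, map_add, hf, hg]
  | hneg f hf => rw [map_neg, map_neg, hf]
  | hmul f g hf hg => rw [map_mul, map_mul, hf, hg]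
  | hinv f hf => rw [map_inv₀, map_inv₀, hf]

end Construct

end ALExists

/-- **Existence of the Atkin-Lehner involution.** -/
theorem nonempty_ALInv (M q : ℕ) [NeZero M] [NeZero q] (hq : q.Prime) (hqM : ¬ q ∣ M) :
    Nonempty (ALInv M q) := by
  obtain ⟨γ, x, y, hγ, hdet⟩ := ALExists.exists_gamma ((hq.coprime_iff_not_dvd).2 hqM)
  exact ⟨{
    w := RingEquiv.ofRingHom (ALExists.wHom hq γ x y hγ hdet) (ALExists.wHom hq γ x y hγ hdet)
      (RingHom.ext fun f => ALExists.wHom_wHom hq γ x y hγ hdet f)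
      (RingHom.ext fun f => ALExists.wHom_wHom hq γ x y hγ hdet f)
    w_alpha := fun f => ALExists.wHom_alpha hq γ x y hγ hdet f
    w_beta := fun f => ALExists.wHom_beta hq γ x y hγ hdet f }⟩

/-- The Atkin-Lehner involution. -/
def alInv (M q : ℕ) [NeZero M] [NeZero q] (hq : q.Prime) (hqM : ¬ q ∣ M) : ALInv M q :=
  (nonempty_ALInv M q hq hqM).some

end Fermat.Agent.S34

end
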