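/-
S34 middle (helper34): reduction of `UNI` (unipotence of inertia on the Kummer model of level
`M q`) to the statement `Tor` on the toric part.

* `Tor W A n` : inertia acts trivially on the classes of the Kummer units which are `≡ 1` for both
  vertical valuations `v_∞` and `v_0 = v_∞ ∘ w`.   THIS IS THE TARGET OF THE NODAL CORE.
* `UNI'_of_Tor` : `Tor W A n → UNI' (M * q) A n`.

For `τ` in the inertia group, `τ u / u` is `≡ κ_∞` at `v_∞` and `≡ κ_0` at `v_0`, with unit
constants; the residue of `κ_0 / κ_∞` need not be `1`.  This is repaired with the Kronecker elements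
`x = j - j_q ^ q`, `y = j_q - j ^ q`:  `(x + η y) / (x + y)` is `≡ 1` at `v_∞` and `≡ η` at `v_0`.
-/
import Fermat.Agent.S34.Statement
import Fermat.Agent.S34.Kron

set_option autoImplicit false

noncomputable section

namespace Fermat.Agent.S34

open ModularCurve AlgebraicCurve Fermat.Agent.S24 Fermat.Agent.S24.B Fermat.Agent.GAL
  Fermat.Agent.GAL.E

/-- **Target of the nodal core**: inertia acts trivially on the toric part. -/
def Tor {M q : ℕ} [NeZero M] [NeZero q] (W : ALInv M q) (A : ValuationSubring Kbar) (n : ℕ) :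
    Prop :=
  ∀ u : FN (M * q), IsKum (M * q) n u → OneAt (M * q) A u → OneAt (M * q) A (W.w u) →
    ∀ τ : GQ, τ ∈ A.inertiaSubgroupIn ℚ → ∃ z : FN (M * q), galF (M * q) τ u = z ^ n * u

theorem mem_of_pow_mem {A : ValuationSubring Kbar} {n : ℕ} (hn : 0 < n) {η : Kbar}
    (h : η ^ n ∈ A) : η ∈ A := by
  rw [← A.valuation_le_one_iff] at h ⊢
  by_contra hlt
  rw [not_le] at hlt
  rw [map_pow] at h
  exact absurd h (not_le.2 (one_lt_pow₀ hlt hn.ne'))

/-- **Reduction of the unipotence of inertia to the toric part.** -/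
theorem UNI'_of_Tor {M q : ℕ} [NeZero M] [NeZero q] (hq : q.Prime) (W : ALInv M q)
    {A : ValuationSubring Kbar} (hA : A.LiesOverPrime q) {n : ℕ} (hn : 0 < n)
    (hT : Tor W A n) : UNI' (M * q) A n := by
  intro τ hτ u hu hk
  have hτu : galF (M * q) τ u ≠ 0 := (map_ne_zero_iff _ (galF (M * q) τ).injective).2 hu
  have hwu : W.w u ≠ 0 := (map_ne_zero_iff _ W.w.injective).2 hu
  obtain ⟨κ, v, hκ0, hκ1, hκ2, hv, huv⟩ := exists_oneAt_of_inertia q hq hA τ hτ u hu
  obtain ⟨κ', v', hκ'0, hκ'1, hκ'2, hv', huv'⟩ := exists_oneAt_of_inertia q hq hA τ hτ (W.w u) hwu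
  have hcκ : algebraMap Kbar (FN (M * q)) κ ≠ 0 := (map_ne_zero _).2 hκ0
  have hcκ' : algebraMap Kbar (FN (M * q)) κ' ≠ 0 := (map_ne_zero _).2 hκ'0
  -- `w v = (κ' / κ) v'`
  have hwv : algebraMap Kbar (FN (M * q)) κ * W.w v = algebraMap Kbar (FN (M * q)) κ' * v' := by
    have h1 : W.w (galF (M * q) τ u) = algebraMap Kbar (FN (M * q)) κ * W.w v * W.w u := by
      rw [huv, map_mul, map_mul, W.w_algebraMap]
    rw [W.w_galF hq, huv'] at h1
    exact (mul_right_cancel₀ hwu h1).symm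
  -- the correcting constant
  obtain ⟨η, hη⟩ := IsAlgClosed.exists_pow_nat_eq (κ / κ') hn
  have hη0 : η ≠ 0 := by
    rintro rfl
    rw [zero_pow hn.ne'] at hη
    exact div_ne_zero hκ0 hκ'0 hη.symm
  have hηA : η ∈ A := mem_of_pow_mem hn (by rw [hη, div_eq_mul_inv]; exact A.mul_mem _ _ hκ1 hκ'2)
  have hηA' : η⁻¹ ∈ A := mem_of_pow_mem hn (by
    rw [inv_pow, hη, inv_div, div_eq_mul_inv]; exact A.mul_mem _ _ hκ'1 hκ2)
  set h : FN (M * q) := kronH M q η with hh
  have hh1 : OneAt (M * q) A h := oneAt_kronH M hq hA η hηA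
  have hh2 : OneAt (M * q) A (kronH M q η⁻¹) := oneAt_kronH M hq hA η⁻¹ hηA'
  have hwh : W.w h = algebraMap Kbar (FN (M * q)) η * kronH M q η⁻¹ := W.w_kronH M η hη0
  have hh0 : h ≠ 0 := hh1.ne_zero
  have hτh : galF (M * q) τ h ≠ 0 := (map_ne_zero_iff _ (galF (M * q) τ).injective).2 hh0
  -- the corrected unit
  have hkv : IsKum (M * q) n v := by
    have : v = galF (M * q) τ u * (algebraMap Kbar (FN (M * q)) κ * u)⁻¹ := by
      rw [huv]
      field_simp
    rw [this]
    exact (IsKum.galF hk τ).mul ((isKum_algebraMap _ n κ).mul hk).inv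
  have hk3 : IsKum (M * q) n (v * h ^ n) := hkv.mul (isKum_pow_self _ n h)
  have h31 : OneAt (M * q) A (v * h ^ n) := hv.mul (hh1.pow n)
  have h32 : OneAt (M * q) A (W.w (v * h ^ n)) := by
    have : W.w (v * h ^ n) = v' * kronH M q η⁻¹ ^ n := by
      apply mul_left_cancel₀ hcκ
      rw [map_mul, map_pow, hwh, mul_pow, ← map_pow, hη, ← mul_assoc, hwv, map_div₀]
      field_simp
    rw [this]
    exact hv'.mul (hh2.pow n)
  obtain ⟨z, hz⟩ := hT _ hk3 h31 h32 τ hτ
  rw [map_mul, map_pow] at hz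
  obtain ⟨d, hd⟩ := IsAlgClosed.exists_pow_nat_eq (τ κ / κ) hn
  have hDa : algebraMap Kbar (FN (M * q)) d ^ n * algebraMap Kbar (FN (M * q)) κ
      = algebraMap Kbar (FN (M * q)) (τ κ) := by
    rw [← map_pow, hd, ← map_mul, div_mul_cancel₀ _ hκ0]
  have e1 : galF (M * q) τ (galF (M * q) τ u)
      = algebraMap Kbar (FN (M * q)) (τ κ) * galF (M * q) τ v * galF (M * q) τ u := by
    conv_lhs => rw [huv]
    rw [map_mul, map_mul, galF_algebraMap]
  refine ⟨algebraMap Kbar (FN (M * q)) d * (z * h / galF (M * q) τ h), ?_⟩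
  rw [e1]
  apply mul_right_cancel₀ (pow_ne_zero n hτh)
  have e3 : (algebraMap Kbar (FN (M * q)) d * (z * h / galF (M * q) τ h)) ^ n
      * galF (M * q) τ u ^ 2 * galF (M * q) τ h ^ n
      = algebraMap Kbar (FN (M * q)) d ^ n * z ^ n * h ^ n * galF (M * q) τ u ^ 2 := by
    rw [mul_pow, div_pow, mul_pow]
    field_simp
  rw [e3]
  linear_combination
    (algebraMap Kbar (FN (M * q)) (τ κ) * galF (M * q) τ u * u) * hz
    - (z ^ n * h ^ n * galF (M * q) τ u * u * v) * hDa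
    - (z ^ n * h ^ n * galF (M * q) τ u * algebraMap Kbar (FN (M * q)) d ^ n) * huv

/-- The statement `UNI` at level `M q` from `Tor`. -/
theorem UNI_of_Tor {M q : ℕ} [NeZero M] [NeZero q] (hq : q.Prime) (W : ALInv M q)
    {A : ValuationSubring Kbar} (hA : A.LiesOverPrime q) {n : ℕ} (hn : 0 < n)
    (hT : Tor W A n) : UNI (M * q) A n :=
  UNI_of_UNI' (UNI'_of_Tor hq W hA hn hT)

/-- What remains to be proved for S34 (besides the cluster GAL). -/
def TorStatement : Prop :=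
  ∀ (M : ℕ) [NeZero M] (q : ℕ) [NeZero q], q.Prime → ¬ q ∣ M →
    ∃ W : ALInv M q, ∀ A : ValuationSubring Kbar, A.LiesOverPrime q →
      ∀ n : ℕ, 0 < n → ¬ q ∣ n → Tor W A n

theorem UNIStatement_of_TorStatement (h : TorStatement) : UNIStatement := by
  intro N _ q hq hqN hq2 A hA n hqn
  obtain ⟨M, rfl⟩ := hqN
  have hM0 : M ≠ 0 := by
    rintro rfl
    exact (NeZero.ne (q * 0)) (mul_zero q)
  have : NeZero M := ⟨hM0⟩
  have : NeZero q := ⟨hq.ne_zero⟩
  have hqM : ¬ q ∣ M := by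
    rintro ⟨M', rfl⟩
    exact hq2 ⟨M', by ring⟩
  have hn : 0 < n := Nat.pos_of_ne_zero (by rintro rfl; exact hqn (dvd_zero q))
  obtain ⟨W, hW⟩ := h M q hq hqM
  have := UNI_of_Tor hq W hA hn (hW A hA n hn hqn)
  rwa [mul_comm M q] at this

end Fermat.Agent.S34

end
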